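/-
(DS-e2) Chebotarev, sub-brick (K3)(b) (helper94).  Mathlib only.

`L` a number field, `q` a prime number not dividing `disc L`.  Then the `q`-th cyclotomic polynomial
is irreducible over `L` (Eisenstein at a prime of `𝓞 L` above `q`, where `q` is a uniformiser, for
`Φ_q(X + 1)`; Gauss's lemma), hence `[L(ζ_q) : L] = q - 1`.
-/
import Mathlib

set_option autoImplicit false
set_option linter.style.haveILetI false

open NumberField Polynomial

namespace Fermat.Agent.DS.Cheb.CycloIrred94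

variable (L : Type*) [Field L] [NumberField L]

/-- At a prime `𝔮` of `𝓞 L` over a rational prime `q ∤ disc L`, `q ∉ 𝔮 ^ 2`. -/
theorem natCast_notMem_sq {q : ℕ} (hq : q.Prime) (hd : ¬ (q : ℤ) ∣ discr L)
    (𝔮 : Ideal (𝓞 L)) [h𝔮 : 𝔮.IsPrime] (hq𝔮 : ((q : ℕ) : 𝓞 L) ∈ 𝔮) :
    ((q : ℕ) : 𝓞 L) ∉ 𝔮 ^ 2 := by
  have hqZ : Prime (q : ℤ) := Nat.prime_iff_prime_int.mp hq
  have hmem : ((q : ℤ) : 𝓞 L) ∈ 𝔮 := by simpa using hq𝔮
  have hun : Algebra.IsUnramifiedAt ℤ 𝔮 :=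
    (NumberField.not_dvd_discr_iff_forall_mem L (𝓞 L) hqZ).mp hd 𝔮 inferInstance hmem
  have he : 𝔮.ramificationIdx ℤ = 1 := Ideal.ramificationIdx_eq_one_iff.mpr hun
  set p : Ideal ℤ := Ideal.span {(q : ℤ)} with hp
  haveI hlies : 𝔮.LiesOver p := (Ideal.liesOver_span_iff h𝔮.ne_top hqZ).mpr hmem
  have hp0 : p ≠ ⊥ := by
    rw [hp, Ne, Ideal.span_singleton_eq_bot]
    exact hqZ.ne_zero
  have he' : p.ramificationIdx' 𝔮 = 1 := by
    rw [Ideal.ramificationIdx'_eq_ramificationIdx p 𝔮 hp0, he]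
  intro hsq
  have hle : Ideal.map (algebraMap ℤ (𝓞 L)) p ≤ 𝔮 ^ 2 := by
    rw [hp, Ideal.map_span, Ideal.span_le]
    rintro _ ⟨x, hx, rfl⟩
    rw [Set.mem_singleton_iff] at hx
    rw [hx]
    simpa using hsq
  by_cases hb : ∃ N, ∀ k, Ideal.map (algebraMap ℤ (𝓞 L)) p ≤ 𝔮 ^ k → k ≤ N
  · classical
    have h1 := Ideal.ramificationIdx'_eq_find hb
    have h2 := Nat.find_spec hb 2 hle
    rw [← h1, he'] at h2
    omega
  · push Not at hb
    have h1 : p.ramificationIdx' 𝔮 = 0 := Ideal.ramificationIdx'_eq_zero hb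
    rw [he'] at h1
    exact one_ne_zero h1

/-- `Φ_q(X + 1)` over `𝓞 L` is Eisenstein at a prime above `q ∤ disc L`. -/
theorem isEisensteinAt_cyclotomic_comp {q : ℕ} [hq : Fact q.Prime] (hd : ¬ (q : ℤ) ∣ discr L)
    (𝔮 : Ideal (𝓞 L)) [h𝔮 : 𝔮.IsPrime] (hq𝔮 : ((q : ℕ) : 𝓞 L) ∈ 𝔮) :
    ((cyclotomic q (𝓞 L)).comp (X + 1)).IsEisensteinAt 𝔮 := by
  have hZ := cyclotomic_comp_X_add_one_isEisensteinAt q
  have hmap : (cyclotomic q (𝓞 L)).comp (X + 1)
      = ((cyclotomic q ℤ).comp (X + 1)).map (algebraMap ℤ (𝓞 L)) := by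
    rw [Polynomial.map_comp, map_cyclotomic, Polynomial.map_add, Polynomial.map_X,
      Polynomial.map_one]
  have hmonicZ : ((cyclotomic q ℤ).comp (X + 1)).Monic := by
    rw [show (X + 1 : ℤ[X]) = X + C 1 by simp]
    refine (cyclotomic.monic q ℤ).comp (monic_X_add_C 1) fun h => ?_
    rw [natDegree_X_add_C] at h
    exact zero_ne_one h.symm
  have hmonic : ((cyclotomic q (𝓞 L)).comp (X + 1)).Monic := by
    rw [hmap]; exact hmonicZ.map _
  have hin : ∀ z : ℤ, z ∈ Submodule.span ℤ {(q : ℤ)} → algebraMap ℤ (𝓞 L) z ∈ 𝔮 := by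
    intro z hz
    rw [Ideal.submodule_span_eq, Ideal.mem_span_singleton] at hz
    obtain ⟨c, rfl⟩ := hz
    rw [map_mul]
    exact 𝔮.mul_mem_right _ (by simpa using hq𝔮)
  refine hmonic.isEisensteinAt_of_mem_of_notMem h𝔮.ne_top (fun {n} hn => ?_) ?_
  · rw [hmap, coeff_map]
    apply hin
    have hdeg : ((cyclotomic q ℤ).comp (X + 1)).natDegree
        = ((cyclotomic q (𝓞 L)).comp (X + 1)).natDegree := by
      rw [hmap, hmonicZ.natDegree_map]
    exact hZ.mem (hdeg ▸ hn)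
  · have h0 : ((cyclotomic q (𝓞 L)).comp (X + 1)).coeff 0 = ((q : ℕ) : 𝓞 L) := by
      rw [coeff_zero_eq_eval_zero, eval_comp, eval_add, eval_X, eval_one, zero_add,
        eval_one_cyclotomic_prime]
    rw [h0]
    exact natCast_notMem_sq L hq.out hd 𝔮 hq𝔮

/-- **(K3)(b)**: the `q`-th cyclotomic polynomial is irreducible over a number field whose
discriminant is prime to `q`. -/
theorem irreducible_cyclotomic_of_not_dvd_discr (q : ℕ) [hq : Fact q.Prime]
    (hd : ¬ (q : ℤ) ∣ discr L) : Irreducible (cyclotomic q L) := by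
  -- a prime of `𝓞 L` over `q`
  have hqZ : Prime (q : ℤ) := Nat.prime_iff_prime_int.mp hq.out
  haveI : (Ideal.span {(q : ℤ)}).IsPrime := (Ideal.span_singleton_prime hqZ.ne_zero).mpr hqZ
  obtain ⟨𝔮, -, h𝔮, h𝔮q⟩ := Ideal.exists_ideal_over_prime_of_isIntegral
    (Ideal.span {(q : ℤ)}) (⊥ : Ideal (𝓞 L))
    (by
      rw [Ideal.comap_bot_of_injective _ (FaithfulSMul.algebraMap_injective ℤ (𝓞 L))]
      exact bot_le)
  have hq𝔮 : ((q : ℕ) : 𝓞 L) ∈ 𝔮 := by
    have : (q : ℤ) ∈ Ideal.comap (algebraMap ℤ (𝓞 L)) 𝔮 := by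
      rw [h𝔮q]; exact Ideal.mem_span_singleton_self _
    simpa using this
  have hE := isEisensteinAt_cyclotomic_comp L hd 𝔮 hq𝔮
  have hmonic : ((cyclotomic q (𝓞 L)).comp (X + 1)).Monic := by
    rw [show (X + 1 : (𝓞 L)[X]) = X + C 1 by simp]
    refine (cyclotomic.monic q (𝓞 L)).comp (monic_X_add_C 1) fun h => ?_
    rw [natDegree_X_add_C] at h
    exact zero_ne_one h.symm
  have hdeg : 0 < ((cyclotomic q (𝓞 L)).comp (X + 1)).natDegree := by
    rw [show (X + 1 : (𝓞 L)[X]) = X + C 1 by simp, natDegree_comp, natDegree_X_add_C, mul_one,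
      natDegree_cyclotomic, Nat.totient_prime hq.out]
    have := hq.out.two_le
    omega
  have hirrO : Irreducible ((cyclotomic q (𝓞 L)).comp (X + 1)) :=
    hE.irreducible h𝔮 hmonic.isPrimitive hdeg
  -- Gauss
  have hirrL : Irreducible (((cyclotomic q (𝓞 L)).comp (X + 1)).map (algebraMap (𝓞 L) L)) :=
    (hmonic.irreducible_iff_irreducible_map_fraction_map (K := L)).mp hirrO
  have hmapL : ((cyclotomic q (𝓞 L)).comp (X + 1)).map (algebraMap (𝓞 L) L)
      = (cyclotomic q L).comp (X + 1) := by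
    rw [Polynomial.map_comp, map_cyclotomic, Polynomial.map_add, Polynomial.map_X,
      Polynomial.map_one]
  rw [hmapL] at hirrL
  -- undo the translation
  have htr : (cyclotomic q L).comp (X + 1) = algEquivAevalXAddC (1 : L) (cyclotomic q L) := by
    rw [algEquivAevalXAddC_apply, comp_eq_aeval, map_one]
  rw [htr] at hirrL
  exact (MulEquiv.irreducible_iff (algEquivAevalXAddC (1 : L))).mp hirrL

/-- `[L(ζ_q) : L] = q - 1` when `q ∤ disc L`. -/
theorem finrank_eq_sub_one_of_not_dvd_discr (q : ℕ) [hq : Fact q.Prime]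
    (hd : ¬ (q : ℤ) ∣ discr L) (M : Type*) [Field M] [Algebra L M]
    [IsCyclotomicExtension {q} L M] : Module.finrank L M = q - 1 := by
  rw [IsCyclotomicExtension.finrank M (irreducible_cyclotomic_of_not_dvd_discr L q hd),
    Nat.totient_prime hq.out]

end Fermat.Agent.DS.Cheb.CycloIrred94
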