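/-
(DS-e2) Chebotarev, brick (K4) = Deuring's reduction (helper68).
File 3: `galoisLower_of_cyclicLower : Spec11.CyclicLower → Spec11.GaloisLower`.

`L/K` Galois, `S ⊆ Gal(L/K)` stable under conjugation and inversion.  Apply `CyclicLower` to every
cyclic extension `L / fixF τ`, `τ ∈ S`, with its generator `gen τ`, multiply by the weight
`d_τ = 2 / #{τ, τ⁻¹}`, sum over `τ ∈ S` and compare with the double count
`DeuringCount68.main_real`.
-/
import Mathlib
import Fermat.Agent.DS.Cheb.DeuringCount68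

set_option autoImplicit false
set_option linter.unusedSectionVars false
set_option linter.style.longLine false

open IsDedekindDomain Ideal NumberField
open scoped Pointwise
open Fermat.Agent.CFT.SplitPrimes Fermat.Agent.CFT.NotAllSplit Fermat.Agent.CFT.ArtinSymbol
open Fermat.Agent.DS.Cheb.Spec11
open Fermat.Agent.ES.GAL.ChebAbstract23 Fermat.Agent.DS.Cheb.DeuringFrob68
open Fermat.Agent.DS.Cheb.DeuringCount68

namespace Fermat.Agent.DS.Cheb.Deuring68

theorem log_nonneg_of_mem {s : ℝ} (hs : s ∈ Set.Ioc (1 : ℝ) 2) : 0 ≤ Real.log (1 / (s - 1)) := by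
  apply Real.log_nonneg
  rw [le_div_iff₀ (by linarith [hs.1])]
  linarith [hs.2]

/-- **(K4) Deuring's reduction**: the lower-bound form of Chebotarev for cyclic extensions and
pairs `{σ, σ⁻¹}` of generators implies it for arbitrary Galois extensions and subsets stable under
conjugation and inversion. -/
theorem galoisLower_of_cyclicLower (h : CyclicLower) : GaloisLower := by
  intro K L _ _ _ _ _ _ S hconj hinv m hm ε hε
  classical
  have hfinG : Finite (L ≃ₐ[K] L) := inferInstance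
  have : Fintype (L ≃ₐ[K] L) := Fintype.ofFinite _
  set Sf : Finset (L ≃ₐ[K] L) := Finset.univ.filter (· ∈ S) with hSf
  have hcard : Nat.card S = Sf.card := by
    rw [Nat.card_eq_fintype_card, hSf, Fintype.card_subtype]
  have hGcard : Nat.card (L ≃ₐ[K] L) = Module.finrank K L := IsGalois.card_aut_eq_finrank K L
  set ε' : ℝ := ε / (Sf.card + 1) with hε'def
  have hpos : (0 : ℝ) < (Sf.card : ℝ) + 1 := by positivity
  have hε' : 0 < ε' := div_pos hε hpos
  have hεS : (Sf.card : ℝ) * ε' ≤ ε := by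
    rw [hε'def, mul_div_assoc', div_le_iff₀ hpos]
    nlinarith [hε.le, (Nat.cast_nonneg Sf.card : (0 : ℝ) ≤ Sf.card)]
  -- `CyclicLower` at each `τ`
  have hτ : ∀ τ : L ≃ₐ[K] L, ∃ B : ℝ, ∀ s ∈ Set.Ioc (1 : ℝ) 2,
      ((Nat.card ({gen τ, (gen τ)⁻¹} : Set (L ≃ₐ[fixF τ] L)) : ℝ) - ε') *
          Real.log (1 / (s - 1)) - B ≤
        (Nat.card (L ≃ₐ[fixF τ] L) : ℝ) *
          wsum (xP (fixF τ) s) (frobInSet (fixF τ) L m {gen τ, (gen τ)⁻¹}) :=
    fun τ => h (fixF τ) L (gen τ) (zpowers_gen τ) m hm ε' hε'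
  choose B hB using hτ
  refine ⟨∑ τ ∈ Sf, |B τ|, fun s hs => ?_⟩
  have hlog := log_nonneg_of_mem hs
  set ℓ : ℝ := Real.log (1 / (s - 1)) with hℓ
  have hmain := main_real hconj hinv m hs.1
  -- termwise lower bound
  have hterm : ∀ τ ∈ Sf, (2 - 2 * ε') * ℓ - 2 * |B τ| ≤
      ((dW τ * orderOf τ : ℕ) : ℝ) *
        wsum (xP (fixF τ) s) (frobInSet (fixF τ) L m {gen τ, (gen τ)⁻¹}) := by
    intro τ _
    have h1 := hB τ s hs
    rw [card_gal_fixF] at h1
    have hd0 : (0 : ℝ) ≤ dW τ := Nat.cast_nonneg _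
    have hd2 : (dW τ : ℝ) ≤ 2 := by exact_mod_cast dW_le_two τ
    have hdc : (dW τ : ℝ) * (Nat.card ({gen τ, (gen τ)⁻¹} : Set (L ≃ₐ[fixF τ] L)) : ℝ) = 2 := by
      exact_mod_cast dW_mul_card τ
    have h2 := mul_le_mul_of_nonneg_left h1 hd0
    have h3 : ((dW τ * orderOf τ : ℕ) : ℝ) *
        wsum (xP (fixF τ) s) (frobInSet (fixF τ) L m {gen τ, (gen τ)⁻¹}) =
        (dW τ : ℝ) * ((orderOf τ : ℝ) *
          wsum (xP (fixF τ) s) (frobInSet (fixF τ) L m {gen τ, (gen τ)⁻¹})) := by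
      push_cast; ring
    rw [h3]
    refine le_trans ?_ h2
    have h4 : (dW τ : ℝ) * (((Nat.card ({gen τ, (gen τ)⁻¹} : Set (L ≃ₐ[fixF τ] L)) : ℝ) - ε') *
        ℓ - B τ) = (2 - (dW τ : ℝ) * ε') * ℓ - (dW τ : ℝ) * B τ := by
      rw [← hdc]; ring
    rw [h4]
    have h5 : (dW τ : ℝ) * ε' * ℓ ≤ 2 * ε' * ℓ :=
      mul_le_mul_of_nonneg_right (mul_le_mul_of_nonneg_right hd2 hε'.le) hlog
    have h6 : (dW τ : ℝ) * B τ ≤ 2 * |B τ| := by
      calc (dW τ : ℝ) * B τ ≤ (dW τ : ℝ) * |B τ| :=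
            mul_le_mul_of_nonneg_left (le_abs_self _) hd0
        _ ≤ 2 * |B τ| := mul_le_mul_of_nonneg_right hd2 (abs_nonneg _)
    nlinarith
  have hsum := Finset.sum_le_sum hterm
  rw [Finset.sum_sub_distrib, Finset.sum_const, nsmul_eq_mul, ← Finset.mul_sum] at hsum
  have hfin := hsum.trans hmain
  rw [hcard, hGcard]
  push_cast at hfin
  have h7 : (Sf.card : ℝ) * ε' * ℓ ≤ ε * ℓ := mul_le_mul_of_nonneg_right hεS hlog
  nlinarith

end Fermat.Agent.DS.Cheb.Deuring68
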