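/-
(DS-e2) Chebotarev density, lower-bound form, for subsets of the Galois group stable under
conjugation and inversion (helper11).  CONTRACTS of the chapter: the four interfaces between the
bricks (K1) bounded twisted ideal `L`-series, (K2) cyclotomic case, (K3) crossing with a cyclotomic
field, (K4) Deuring reduction, (K5) transport to `ℚ̄`.  Every contract is a plain `Prop`; each brick
proves `previous contract → next contract`.

Vocabulary (all on main): `goodPrimes K N` (primes of prime absolute norm not dividing `N`),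
`frobOf K L 𝔭` (a Frobenius element at some prime over `𝔭`), `xP K s 𝔭 = N𝔭 ^ (-s)`,
`wsum x T = ∑' p, T.indicator x p`.
-/
import Mathlib
import Fermat.Agent.CFT.NotAllSplit
import Fermat.Agent.CFT.ArtinSymbol
import Fermat.Agent.ES.GAL.ChebAbstract23
import Fermat.Agent.Lib.FrobeniusExists
import Fermat.Prelude.Def_EllipticCurve_FrobeniusTrace
import Fermat.Prelude.Def_FLTPrelim_Ramification

set_option autoImplicit false

open IsDedekindDomain Ideal NumberField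
open Fermat.Agent.CFT.SplitPrimes Fermat.Agent.CFT.NotAllSplit Fermat.Agent.CFT.ArtinSymbol
open Fermat.Agent.ES.GAL.ChebAbstract23 Fermat.Agent.Lib.FrobeniusExists

namespace Fermat.Agent.DS.Cheb.Spec11

/-- The primes of `K` of prime absolute norm not dividing `m * disc L` at which (a choice of)
Frobenius lies in `S`.  For `S` stable under conjugation the choice does not matter. -/
def frobInSet (K L : Type) [Field K] [Field L] [NumberField K] [NumberField L] [Algebra K L]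
    [IsGalois K L] (m : ℕ) (S : Set (L ≃ₐ[K] L)) : Set (HeightOneSpectrum (𝓞 K)) :=
  {p | p ∈ goodPrimes K (m * (discr L).natAbs) ∧ frobOf K L p.asIdeal ∈ S}

/-- **(K1)** the twisted ideal series `∑ χ(N𝔞 mod q) N𝔞^{-s}` of an EVEN Dirichlet character `χ`
mod `q` is bounded on `(1, 2]` as soon as `𝔞 ↦ χ(N𝔞)` is not identically `1` on the ideals prime
to `q`. -/
def TwistBounded : Prop :=
  ∀ (K : Type) [Field K] [NumberField K] (q : ℕ) [NeZero q] (χ : DirichletCharacter ℂ q),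
    χ.Even →
    (∃ 𝔞 : Ideal (𝓞 K), (absNorm 𝔞).Coprime q ∧ χ ((absNorm 𝔞 : ℕ) : ZMod q) ≠ 1) →
    ∃ B : ℝ, ∀ s ∈ Set.Ioc (1 : ℝ) 2,
      ‖∑' 𝔞 : Ideal (𝓞 K), χ ((absNorm 𝔞 : ℕ) : ZMod q) *
        (((absNorm 𝔞 : ℝ) ^ (-s) : ℝ) : ℂ)‖ ≤ B

/-- **(K2)** the cyclotomic case: `M = F(ζ_q)`, `W ⊆ Gal(M/F)` stable under inversion and under
the sign (`w' ζ = (w ζ)⁻¹` on the `q`-th roots of unity).  Lower bound with `O(1)` error. -/
def CycloLower : Prop :=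
  ∀ (F M : Type) [Field F] [Field M] [NumberField F] [NumberField M] [Algebra F M]
    (q : ℕ) [Fact q.Prime] [IsCyclotomicExtension {q} F M] [IsGalois F M]
    (W : Set (M ≃ₐ[F] M)), (∀ w ∈ W, w⁻¹ ∈ W) →
    (∀ w ∈ W, ∀ w' : M ≃ₐ[F] M, (∀ ζ : M, ζ ^ q = 1 → w' ζ = (w ζ)⁻¹) → w' ∈ W) →
    ∀ m : ℕ, m ≠ 0 → ∃ B : ℝ, ∀ s ∈ Set.Ioc (1 : ℝ) 2,
      (Nat.card W : ℝ) * Real.log (1 / (s - 1)) - B ≤
        (Nat.card (M ≃ₐ[F] M) : ℝ) * wsum (xP F s) (frobInSet F M m W)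

/-- **(K3)** cyclic extension `L/E` with generator `σ`: the pair `{σ, σ⁻¹}` has lower density
`#{σ, σ⁻¹} / [L : E]`, in `ε`-form. -/
def CyclicLower : Prop :=
  ∀ (E L : Type) [Field E] [Field L] [NumberField E] [NumberField L] [Algebra E L] [IsGalois E L]
    (σ : L ≃ₐ[E] L), Subgroup.zpowers σ = ⊤ → ∀ m : ℕ, m ≠ 0 → ∀ ε : ℝ, 0 < ε →
    ∃ B : ℝ, ∀ s ∈ Set.Ioc (1 : ℝ) 2,
      ((Nat.card ({σ, σ⁻¹} : Set (L ≃ₐ[E] L)) : ℝ) - ε) * Real.log (1 / (s - 1)) - B ≤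
        (Nat.card (L ≃ₐ[E] L) : ℝ) * wsum (xP E s) (frobInSet E L m {σ, σ⁻¹})

/-- **(K4)** arbitrary Galois `L/K` of number fields, `S` stable under conjugation and inversion:
lower density `#S / [L : K]`, in `ε`-form. -/
def GaloisLower : Prop :=
  ∀ (K L : Type) [Field K] [Field L] [NumberField K] [NumberField L] [Algebra K L] [IsGalois K L]
    (S : Set (L ≃ₐ[K] L)), (∀ g h, h ∈ S → g * h * g⁻¹ ∈ S) → (∀ h ∈ S, h⁻¹ ∈ S) →
    ∀ m : ℕ, m ≠ 0 → ∀ ε : ℝ, 0 < ε →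
    ∃ B : ℝ, ∀ s ∈ Set.Ioc (1 : ℝ) 2,
      ((Nat.card S : ℝ) - ε) * Real.log (1 / (s - 1)) - B ≤
        (Nat.card (L ≃ₐ[K] L) : ℝ) * wsum (xP K s) (frobInSet K L m S)

/-- **(K5) = EXIT** of the chapter: `ℚ̄` form with finite sets of rational primes, every Frobenius
element at every valuation subring over `p` restricting into `S`. -/
def QbarLower : Prop :=
  ∀ (L : IntermediateField ℚ Qbar) [FiniteDimensional ℚ L] [IsGalois ℚ L]
    (S : Set (L ≃ₐ[ℚ] L)), (∀ g h, h ∈ S → g * h * g⁻¹ ∈ S) → (∀ h ∈ S, h⁻¹ ∈ S) →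
    ∀ m : ℕ, m ≠ 0 → ∀ ε : ℝ, 0 < ε →
    ∃ B : ℝ, ∀ s ∈ Set.Ioc (1 : ℝ) 2, ∃ P : Finset ℕ,
      (∀ p ∈ P, p.Prime ∧ ¬ p ∣ m ∧ ∀ A : ValuationSubring Qbar, A.LiesOverPrime p →
        ∀ φ : GQ, A.IsFrobeniusAt φ p → AlgEquiv.restrictNormalHom L φ ∈ S) ∧
      ((Nat.card S : ℝ) / Nat.card (L ≃ₐ[ℚ] L) - ε) * Real.log (1 / (s - 1)) - B ≤
        ∑ p ∈ P, (p : ℝ) ^ (-s)

end Fermat.Agent.DS.Cheb.Spec11
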