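/-
(DS-e2) Chebotarev, brick (K4) = Deuring's reduction `CyclicLower → GaloisLower` (helper68).
File 1: Frobenius bookkeeping.

`L/K` Galois extension of number fields, `τ ∈ Gal(L/K)`, `fixF τ` the fixed field of `⟨τ⟩`,
`gen τ ∈ Gal(L/fixF τ)` the generator corresponding to `τ`.
* `absNorm_below_eq_of_prime` : a prime of prime absolute norm has the same norm as the prime
  below it;
* `isArithFrobAt_restrictScalars` : a Frobenius over an intermediate field at a prime of relative
  degree one is a Frobenius over the base;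
* `frobOf_mem_of_mem` : for a conjugation-stable set `S`, if a Frobenius at an unramified prime `P`
  lies in `S` then so does `frobOf` of the prime below `P`;
* `orderOf_dvd_inertiaDeg` : the order of a Frobenius at an unramified prime divides the residue
  degree;
* `key_of_mem` : if the prime of `fixF τ` below `P` is a good prime with Frobenius `(gen τ)^{±1}`,
  then the prime of `K` below `P` is good, has the same norm, and `τ` or `τ⁻¹` is a Frobenius at
  `P` over `K`.
-/
import Mathlib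
import Fermat.Agent.DS.Cheb.Spec11
import Fermat.Agent.ES.GAL.ChebDensity23

set_option autoImplicit false
set_option linter.unusedSectionVars false
set_option linter.style.longLine false

open IsDedekindDomain Ideal NumberField
open scoped Pointwise
open Fermat.Agent.CFT.SplitPrimes Fermat.Agent.CFT.NotAllSplit Fermat.Agent.CFT.ArtinSymbol
open Fermat.Agent.PT.GLOB.FrobGenerate19 Fermat.Agent.DS.Cheb.Spec11

namespace Fermat.Agent.DS.Cheb.DeuringFrob68

/-! ### Norms -/

section Norm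

variable (K E : Type) [Field K] [Field E] [NumberField K] [NumberField E] [Algebra K E]

/-- A prime of `E` of prime absolute norm has the same norm as the prime of `K` below it. -/
theorem absNorm_below_eq_of_prime (𝔭 : HeightOneSpectrum (𝓞 E))
    (h : (absNorm 𝔭.asIdeal).Prime) :
    absNorm (below (R := 𝓞 K) 𝔭).asIdeal = absNorm 𝔭.asIdeal :=
  eq_of_pow_prime h (absNorm_below_pow K E 𝔭)

end Norm

variable {K L : Type} [Field K] [Field L] [NumberField K] [NumberField L] [Algebra K L]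
  [IsGalois K L]

/-! ### The fixed field of a cyclic subgroup -/

/-- The fixed field of `⟨τ⟩`. -/
noncomputable def fixF (τ : L ≃ₐ[K] L) : IntermediateField K L :=
  IntermediateField.fixedField (Subgroup.zpowers τ)

theorem fixingSubgroup_fixF (τ : L ≃ₐ[K] L) : (fixF τ).fixingSubgroup = Subgroup.zpowers τ :=
  IntermediateField.fixingSubgroup_fixedField _

theorem mem_fixingSubgroup_fixF (τ : L ≃ₐ[K] L) : τ ∈ (fixF τ).fixingSubgroup := by
  rw [fixingSubgroup_fixF]
  exact Subgroup.mem_zpowers τ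

/-- The generator of `Gal(L / fixF τ)` corresponding to `τ`. -/
noncomputable def gen (τ : L ≃ₐ[K] L) : L ≃ₐ[fixF τ] L :=
  (fixF τ).fixingSubgroupEquiv ⟨τ, mem_fixingSubgroup_fixF τ⟩

theorem gen_restrictScalars (τ : L ≃ₐ[K] L) : (gen τ).restrictScalars K = τ := by
  ext x; rfl

theorem restrictScalars_injective (F : IntermediateField K L) :
    Function.Injective (fun g : L ≃ₐ[F] L => g.restrictScalars K) := by
  intro g h hgh
  ext x
  exact DFunLike.congr_fun hgh x

theorem restrictScalars_inv (F : IntermediateField K L) (g : L ≃ₐ[F] L) :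
    (g⁻¹).restrictScalars K = (g.restrictScalars K)⁻¹ := rfl

theorem restrictScalars_zpow (F : IntermediateField K L) (h : L ≃ₐ[F] L) (j : ℤ) :
    (h ^ j).restrictScalars K = (h.restrictScalars K) ^ j := by
  induction j using Int.induction_on with
  | zero => rfl
  | succ i ih =>
    rw [zpow_add_one, zpow_add_one, ← ih]
    rfl
  | pred i ih =>
    rw [zpow_sub_one, zpow_sub_one, ← ih]
    rfl

theorem zpowers_gen (τ : L ≃ₐ[K] L) : Subgroup.zpowers (gen τ) = ⊤ := by
  rw [eq_top_iff]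
  intro g _
  have hg : g.restrictScalars K ∈ (fixF τ).fixingSubgroup := by
    rw [IntermediateField.mem_fixingSubgroup_iff]
    intro x hx
    exact g.commutes ⟨x, hx⟩
  rw [fixingSubgroup_fixF] at hg
  obtain ⟨k, hk⟩ := Subgroup.mem_zpowers_iff.mp hg
  rw [Subgroup.mem_zpowers_iff]
  refine ⟨k, ?_⟩
  apply restrictScalars_injective (K := K) (fixF τ)
  show ((gen τ) ^ k).restrictScalars K = g.restrictScalars K
  rw [← hk, restrictScalars_zpow, gen_restrictScalars]

theorem card_gal_fixF (τ : L ≃ₐ[K] L) : Nat.card (L ≃ₐ[fixF τ] L) = orderOf τ := by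
  rw [← Nat.card_congr (fixF τ).fixingSubgroupEquiv.toEquiv, fixingSubgroup_fixF, Nat.card_zpowers]

theorem isMulCommutative_gal_fixF (τ : L ≃ₐ[K] L) : IsMulCommutative (L ≃ₐ[fixF τ] L) := by
  have hc : IsCyclic (L ≃ₐ[fixF τ] L) :=
    ⟨⟨gen τ, fun x => by
      have : x ∈ Subgroup.zpowers (gen τ) := by rw [zpowers_gen]; exact Subgroup.mem_top x
      exact this⟩⟩
  exact ⟨⟨(IsCyclic.commGroup (α := L ≃ₐ[fixF τ] L)).mul_comm⟩⟩

theorem gen_eq_inv_iff (τ : L ≃ₐ[K] L) : gen τ = (gen τ)⁻¹ ↔ τ = τ⁻¹ := by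
  constructor
  · intro h
    have := congrArg (fun g : L ≃ₐ[fixF τ] L => g.restrictScalars K) h
    simpa only [restrictScalars_inv, gen_restrictScalars] using this
  · intro h
    apply restrictScalars_injective (K := K) (fixF τ)
    show (gen τ).restrictScalars K = ((gen τ)⁻¹).restrictScalars K
    rw [restrictScalars_inv, gen_restrictScalars]
    exact h

/-! ### Frobenius elements -/

theorem under_below (F : IntermediateField K L) (P : HeightOneSpectrum (𝓞 L)) :
    below (R := 𝓞 K) (below (R := 𝓞 F) P) = below (R := 𝓞 K) P := by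
  apply HeightOneSpectrum.ext
  show (P.asIdeal.under (𝓞 F)).under (𝓞 K) = P.asIdeal.under (𝓞 K)
  exact Ideal.under_under _

/-- A Frobenius over an intermediate field `F` at a prime `P` whose restrictions to `F` and `K`
have the same norm is a Frobenius over `K`. -/
theorem isArithFrobAt_restrictScalars (F : IntermediateField K L) (P : Ideal (𝓞 L))
    (hN : absNorm (P.under (𝓞 F)) = absNorm (P.under (𝓞 K)))
    {ψ : L ≃ₐ[F] L} (hψ : IsArithFrobAt (𝓞 F) ψ P) :
    IsArithFrobAt (𝓞 K) (ψ.restrictScalars K) P := by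
  intro x
  have h := hψ x
  change (ψ.restrictScalars K) • x - x ^ Nat.card (𝓞 K ⧸ P.under (𝓞 K)) ∈ P
  rw [← Fermat.Agent.CFT.NotAllSplit10.absNorm_eq_card, ← hN,
    Fermat.Agent.CFT.NotAllSplit10.absNorm_eq_card, Fermat.Agent.CFT.FrobFunct.restrictScalars_smul]
  exact h

/-- A prime of `L` over a good prime of `K` is unramified. -/
theorem inertia_eq_bot_of_good {N : ℕ} (P : HeightOneSpectrum (𝓞 L))
    (hg : below (R := 𝓞 K) P ∈ goodPrimes K (N * (discr L).natAbs)) :
    P.asIdeal.inertia (L ≃ₐ[K] L) = ⊥ := by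
  have := P.isPrime
  have hqn : (absNorm (P.asIdeal.under (𝓞 K))).Prime := hg.1
  exact inertia_eq_bot_of_not_dvd_discr P.asIdeal hqn
    (Fermat.Agent.ES.GAL.ChebDensity23.natCast_absNorm_under_mem (K := K) P.asIdeal)
    (Fermat.Agent.ES.GAL.ChebDensity23.not_dvd_discr_of_not_dvd_mul hg.2)

/-- The order of a Frobenius at an unramified prime divides the residue degree. -/
theorem orderOf_dvd_inertiaDeg (P : HeightOneSpectrum (𝓞 L))
    (hunr : P.asIdeal.inertia (L ≃ₐ[K] L) = ⊥) {φ : L ≃ₐ[K] L}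
    (hφ : IsArithFrobAt (𝓞 K) φ P.asIdeal) :
    orderOf φ ∣ P.asIdeal.inertiaDeg (𝓞 K) := by
  have := P.isPrime
  exact orderOf_dvd_of_pow_eq_one (pow_inertiaDeg_eq_one P.ne_bot hunr hφ)

/-- Two Frobenius elements at primes over the same prime of `K`, the second prime unramified, are
conjugate. -/
theorem exists_conj_eq {P₀ P : Ideal (𝓞 L)} [P₀.IsPrime] [P.IsPrime]
    (hP : P₀.under (𝓞 K) = P.under (𝓞 K)) (hunr : P.inertia (L ≃ₐ[K] L) = ⊥)
    {φ₀ φ : L ≃ₐ[K] L} (hφ₀ : IsArithFrobAt (𝓞 K) φ₀ P₀) (hφ : IsArithFrobAt (𝓞 K) φ P) :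
    ∃ g : L ≃ₐ[K] L, φ = g * φ₀ * g⁻¹ := by
  obtain ⟨g, hg⟩ := Algebra.IsInvariant.exists_smul_of_under_eq (𝓞 K) (𝓞 L) (L ≃ₐ[K] L) P₀ P hP
  have h := hφ₀.conj g
  rw [← hg] at h
  exact ⟨g, isArithFrobAt_unique hunr hφ h⟩

/-- For a conjugation-stable `S` and an unramified prime `P` of `L`: if a Frobenius at `P` lies in
`S`, so does `frobOf` of the prime below. -/
theorem frobOf_mem_of_mem {S : Set (L ≃ₐ[K] L)} (hS : ∀ g h, h ∈ S → g * h * g⁻¹ ∈ S)
    (P : HeightOneSpectrum (𝓞 L)) (hunr : P.asIdeal.inertia (L ≃ₐ[K] L) = ⊥)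
    {φ : L ≃ₐ[K] L} (hφ : IsArithFrobAt (𝓞 K) φ P.asIdeal) (hφS : φ ∈ S) :
    frobOf K L (below (R := 𝓞 K) P).asIdeal ∈ S := by
  have := P.isPrime
  set p := below (R := 𝓞 K) P with hp
  obtain ⟨P₀, hP₀, -, hP₀q, hfrob⟩ := frobOf_spec (L := L) p.isPrime p.ne_bot
  have hPu : P₀.under (𝓞 K) = P.asIdeal.under (𝓞 K) := hP₀q
  obtain ⟨g, hg⟩ := exists_conj_eq hPu hunr hfrob hφ
  have h1 : frobOf K L p.asIdeal = g⁻¹ * φ * (g⁻¹)⁻¹ := by
    rw [hg]; group
  rw [h1]
  exact hS _ _ hφS

/-- **Key local statement.**  If the prime of `fixF τ` below `P` is a good prime whose Frobenius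
in `Gal(L / fixF τ)` is `(gen τ)^{±1}`, then the prime of `K` below `P` is good with the same
norm, and `τ` or `τ⁻¹` is a Frobenius over `K` at `P`. -/
theorem key_of_mem (τ : L ≃ₐ[K] L) (m : ℕ) (P : HeightOneSpectrum (𝓞 L))
    (h : below (R := 𝓞 (fixF τ)) P ∈ frobInSet (fixF τ) L m {gen τ, (gen τ)⁻¹}) :
    absNorm (below (R := 𝓞 K) P).asIdeal = absNorm (below (R := 𝓞 (fixF τ)) P).asIdeal ∧
      below (R := 𝓞 K) P ∈ goodPrimes K (m * (discr L).natAbs) ∧
      ∃ φ : L ≃ₐ[K] L, (φ = τ ∨ φ = τ⁻¹) ∧ IsArithFrobAt (𝓞 K) φ P.asIdeal := by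
  have hPprime := P.isPrime
  obtain ⟨⟨hprime, hndvd⟩, hfrob⟩ := h
  set 𝔭 := below (R := 𝓞 (fixF τ)) P with h𝔭
  have hN : absNorm (below (R := 𝓞 K) P).asIdeal = absNorm 𝔭.asIdeal := by
    rw [← under_below (fixF τ) P]
    exact absNorm_below_eq_of_prime K (fixF τ) 𝔭 hprime
  refine ⟨hN, ⟨by rw [hN]; exact hprime, by rw [hN]; exact hndvd⟩, ?_⟩
  have hcomm := isMulCommutative_gal_fixF τ
  have hψ : IsArithFrobAt (𝓞 (fixF τ)) (frobOf (fixF τ) L 𝔭.asIdeal) P.asIdeal :=
    isArithFrobAt_frobOf 𝔭.isPrime 𝔭.ne_bot P.asIdeal rfl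
  have hψK := isArithFrobAt_restrictScalars (fixF τ) P.asIdeal hN.symm hψ
  refine ⟨(frobOf (fixF τ) L 𝔭.asIdeal).restrictScalars K, ?_, hψK⟩
  rcases hfrob with h1 | h1
  · left
    rw [h1, gen_restrictScalars]
  · right
    rw [Set.mem_singleton_iff] at h1
    rw [h1, restrictScalars_inv, gen_restrictScalars]

end Fermat.Agent.DS.Cheb.DeuringFrob68
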