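/-
(DS-e2) Chebotarev, brick (K4) = Deuring's reduction `CyclicLower → GaloisLower` (helper68).
File 2: the double count on the primes of `L`.

`L/K` Galois, `S ⊆ Gal(L/K)` stable under conjugation and inversion.  For `τ ∈ S` let
`T_τ` be the good primes of `fixF τ` with Frobenius `(gen τ)^{±1}` and `d_τ = 2 / #{τ, τ⁻¹}`.  Then
`∑_{τ ∈ S} d_τ · ord(τ) · ∑_{𝔭 ∈ T_τ} N𝔭^{-s} ≤ 2 · [L : K] · ∑_{p good, Frob_p ∈ S} Np^{-s}`
(`main_real`).  Proof: lift both sides to the primes `P` of `L`; at each `P` the left side sees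
at most `τ ∈ {φ_P, φ_P⁻¹}` (`φ_P` the Frobenius of `P` over `K`), each with `ord τ = ord φ_P ≤ f(P)`,
and `∑_{P ∣ p} f(P) ≤ [L : K]`.
-/
import Mathlib
import Fermat.Agent.DS.Cheb.DeuringFrob68

set_option autoImplicit false
set_option linter.unusedSectionVars false
set_option linter.style.longLine false

open IsDedekindDomain Ideal NumberField
open scoped Pointwise ENNReal
open Fermat.Agent.CFT.SplitPrimes Fermat.Agent.CFT.NotAllSplit Fermat.Agent.CFT.ArtinSymbol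
open Fermat.Agent.PT.GLOB.FrobGenerate19 Fermat.Agent.DS.Cheb.Spec11
open Fermat.Agent.ES.GAL.ChebAbstract23 Fermat.Agent.DS.Cheb.DeuringFrob68

namespace Fermat.Agent.DS.Cheb.DeuringCount68

/-! ### Generic facts on primes in an extension of number fields -/

section Generic

variable (K L : Type) [Field K] [Field L] [NumberField K] [NumberField L] [Algebra K L]

theorem below_surjective :
    Function.Surjective (below (R := 𝓞 K) (S := 𝓞 L)) := by
  intro p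
  obtain ⟨P, -, hP, hPq⟩ := Ideal.exists_ideal_over_prime_of_isIntegral p.asIdeal (⊥ : Ideal (𝓞 L))
    (by
      rw [Ideal.comap_bot_of_injective _ (RingOfIntegers.algebraMap.injective K L)]
      exact bot_le)
  have hP0 : P ≠ ⊥ := by
    rintro rfl
    apply p.ne_bot
    rw [← hPq]
    exact Ideal.comap_bot_of_injective _ (RingOfIntegers.algebraMap.injective K L)
  exact ⟨⟨P, hP, hP0⟩, HeightOneSpectrum.ext hPq⟩

/-- `∑_P f(P) H(p_P) ≤ [L : K] ∑_p H(p)`. -/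
theorem tsum_inertiaDeg_mul_le (H : HeightOneSpectrum (𝓞 K) → ℝ≥0∞) :
    ∑' P : HeightOneSpectrum (𝓞 L),
        ((P.asIdeal.inertiaDeg (𝓞 K) : ℕ) : ℝ≥0∞) * H (below (R := 𝓞 K) P) ≤
      (Module.finrank K L : ℝ≥0∞) * ∑' p, H p := by
  classical
  rw [← ENNReal.tsum_fiberwise (fun P : HeightOneSpectrum (𝓞 L) =>
    ((P.asIdeal.inertiaDeg (𝓞 K) : ℕ) : ℝ≥0∞) * H (below (R := 𝓞 K) P))
    (below (R := 𝓞 K) (S := 𝓞 L)), ← ENNReal.tsum_mul_left]
  refine ENNReal.tsum_le_tsum fun p => ?_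
  have h1 : ∀ P : (below (R := 𝓞 K) (S := 𝓞 L)) ⁻¹' {p}, H (below (R := 𝓞 K) P.1) = H p :=
    fun P => by rw [show below (R := 𝓞 K) P.1 = p from P.2]
  simp_rw [h1]
  rw [ENNReal.tsum_mul_right]
  gcongr
  have hfinfib := (ncard_fiber_le (R := 𝓞 K) (S := 𝓞 L) p).1.fintype
  rw [tsum_fintype, ← Nat.cast_sum]
  norm_cast
  -- the nat inequality
  have := p.isMaximal
  have hfin : (p.asIdeal.primesOver (𝓞 L)).Finite :=
    IsDedekindDomain.primesOver_finite p.asIdeal (𝓞 L)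
  have := hfin.fintype
  have hsum := Ideal.sum_ramification_inertia_eq_finrank p.asIdeal (𝓞 L)
  rw [finrank_int K L] at hsum
  rw [← hsum]
  let e : ((below (R := 𝓞 K) (S := 𝓞 L)) ⁻¹' {p}) → p.asIdeal.primesOver (𝓞 L) :=
    fun P => ⟨P.1.asIdeal, mapsTo_fiber_primesOver p P.2⟩
  have he : Function.Injective e := by
    intro P Q hPQ
    apply Subtype.ext
    apply HeightOneSpectrum.ext
    exact congrArg Subtype.val hPQ
  calc ∑ P : ((below (R := 𝓞 K) (S := 𝓞 L)) ⁻¹' {p}), P.1.asIdeal.inertiaDeg (𝓞 K)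
      = ∑ P : ((below (R := 𝓞 K) (S := 𝓞 L)) ⁻¹' {p}), (e P).1.inertiaDeg (𝓞 K) := rfl
    _ = ∑ q ∈ Finset.univ.image e, q.1.inertiaDeg (𝓞 K) := by
        rw [Finset.sum_image (fun a _ b _ h => he h)]
    _ ≤ ∑ q : p.asIdeal.primesOver (𝓞 L), q.1.inertiaDeg (𝓞 K) :=
        Finset.sum_le_sum_of_subset (Finset.subset_univ _)
    _ ≤ ∑ q : p.asIdeal.primesOver (𝓞 L), q.1.ramificationIdx (𝓞 K) * q.1.inertiaDeg (𝓞 K) := by
        refine Finset.sum_le_sum fun q _ => ?_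
        have : q.1.IsPrime := q.2.1
        exact Nat.le_mul_of_pos_left _ (q.1.ramificationIdx_pos (𝓞 K))

end Generic

section OfReal

variable (F : Type) [Field F] [NumberField F]

theorem ofReal_wsum (T : Set (HeightOneSpectrum (𝓞 F))) {s : ℝ} (hs : 1 < s) :
    ENNReal.ofReal (wsum (xP F s) T) =
      ∑' p, T.indicator (fun p => ENNReal.ofReal (xP F s p)) p := by
  rw [← Fermat.Agent.ES.GAL.ChebDensity23.primeIdealZetaSum_eq_wsum, tsum_indicator_ofReal F T hs]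

theorem wsum_xP_nonneg (T : Set (HeightOneSpectrum (𝓞 F))) (s : ℝ) : 0 ≤ wsum (xP F s) T :=
  wsum_nonneg (fun p => (xP_pos F s p).le) T

end OfReal

variable {K L : Type} [Field K] [Field L] [NumberField K] [NumberField L] [Algebra K L]
  [IsGalois K L]

/-! ### The weights -/

open scoped Classical in
/-- The weight `2 / #{τ, τ⁻¹}`. -/
noncomputable def dW (τ : L ≃ₐ[K] L) : ℕ := if τ = τ⁻¹ then 2 else 1

theorem dW_le_two (τ : L ≃ₐ[K] L) : dW τ ≤ 2 := by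
  unfold dW; split_ifs <;> omega

theorem dW_pos (τ : L ≃ₐ[K] L) : 0 < dW τ := by
  unfold dW; split_ifs <;> omega

open scoped Classical in
theorem sum_dW (φ : L ≃ₐ[K] L) : ∑ τ ∈ ({φ, φ⁻¹} : Finset (L ≃ₐ[K] L)), dW τ = 2 := by
  by_cases h : φ = φ⁻¹
  · rw [← h, Finset.pair_eq_singleton, Finset.sum_singleton, dW, if_pos h]
  · rw [Finset.sum_pair h, dW, dW, if_neg h, if_neg]
    rw [inv_inv]
    exact fun h' => h h'.symm

/-- `d_τ · #{gen τ, (gen τ)⁻¹} = 2`. -/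
theorem dW_mul_card (τ : L ≃ₐ[K] L) :
    dW τ * Nat.card ({gen τ, (gen τ)⁻¹} : Set (L ≃ₐ[fixF τ] L)) = 2 := by
  classical
  rw [Nat.card_coe_set_eq]
  by_cases h : τ = τ⁻¹
  · have h' : gen τ = (gen τ)⁻¹ := (gen_eq_inv_iff τ).mpr h
    rw [← h', Set.pair_eq_singleton, Set.ncard_singleton, dW, if_pos h]
  · have h' : gen τ ≠ (gen τ)⁻¹ := fun h' => h ((gen_eq_inv_iff τ).mp h')
    rw [Set.ncard_pair h', dW, if_neg h]

/-! ### The double count -/

/-- The summand attached to `τ` at a prime `P` of `L`. -/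
noncomputable def uT (m : ℕ) (s : ℝ) (τ : L ≃ₐ[K] L) (P : HeightOneSpectrum (𝓞 L)) : ℝ≥0∞ :=
  (frobInSet (fixF τ) L m {gen τ, (gen τ)⁻¹}).indicator
    (fun 𝔭 => ENNReal.ofReal (xP (fixF τ) s 𝔭)) (below (R := 𝓞 (fixF τ)) P)

open scoped Classical in
/-- **Pointwise double count.** -/
theorem pointwise [Fintype (L ≃ₐ[K] L)] {S : Set (L ≃ₐ[K] L)}
    (hconj : ∀ g h, h ∈ S → g * h * g⁻¹ ∈ S) (hinv : ∀ h ∈ S, h⁻¹ ∈ S) (m : ℕ) (s : ℝ)
    (P : HeightOneSpectrum (𝓞 L)) :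
    ∑ τ ∈ Finset.univ.filter (· ∈ S), ((dW τ * orderOf τ : ℕ) : ℝ≥0∞) * uT m s τ P ≤
      ((2 * P.asIdeal.inertiaDeg (𝓞 K) : ℕ) : ℝ≥0∞) *
        (frobInSet K L m S).indicator (fun p => ENNReal.ofReal (xP K s p))
          (below (R := 𝓞 K) P) := by
  by_cases hex : ∃ τ₀ ∈ S, below (R := 𝓞 (fixF τ₀)) P ∈
      frobInSet (fixF τ₀) L m {gen τ₀, (gen τ₀)⁻¹}
  · obtain ⟨τ₀, hτ₀S, hτ₀⟩ := hex
    obtain ⟨-, hgood, φ, hφτ₀, hφ⟩ := key_of_mem τ₀ m P hτ₀
    have hunr := inertia_eq_bot_of_good (K := K) P hgood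
    have hφS : φ ∈ S := by
      rcases hφτ₀ with rfl | rfl
      · exact hτ₀S
      · exact hinv _ hτ₀S
    have hpT : below (R := 𝓞 K) P ∈ frobInSet K L m S :=
      ⟨hgood, frobOf_mem_of_mem hconj P hunr hφ hφS⟩
    rw [Set.indicator_of_mem hpT]
    set X : ℝ≥0∞ := ENNReal.ofReal (xP K s (below (R := 𝓞 K) P)) with hX
    have hterm : ∀ τ ∈ Finset.univ.filter (· ∈ S),
        ((dW τ * orderOf τ : ℕ) : ℝ≥0∞) * uT m s τ P ≤
          if τ ∈ ({φ, φ⁻¹} : Finset (L ≃ₐ[K] L)) then ((dW τ * orderOf φ : ℕ) : ℝ≥0∞) * X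
          else 0 := by
      intro τ _
      by_cases hmem : below (R := 𝓞 (fixF τ)) P ∈ frobInSet (fixF τ) L m {gen τ, (gen τ)⁻¹}
      · obtain ⟨hN, -, φ', hφ'τ, hφ'⟩ := key_of_mem τ m P hmem
        have hφφ' : φ' = φ := isArithFrobAt_unique hunr hφ' hφ
        rw [hφφ'] at hφ'τ
        have hτφ : τ ∈ ({φ, φ⁻¹} : Finset (L ≃ₐ[K] L)) := by
          rw [Finset.mem_insert, Finset.mem_singleton]
          rcases hφ'τ with h | h
          · left; exact h.symm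
          · right; rw [h, inv_inv]
        have hord : orderOf τ = orderOf φ := by
          rcases hφ'τ with h | h
          · rw [h]
          · rw [h, orderOf_inv]
        rw [if_pos hτφ, uT, Set.indicator_of_mem hmem, hord]
        have hx : xP (fixF τ) s (below (R := 𝓞 (fixF τ)) P) = xP K s (below (R := 𝓞 K) P) := by
          unfold xP
          rw [hN]
        rw [hx]
      · rw [uT, Set.indicator_of_notMem hmem, mul_zero]
        exact zero_le
    calc ∑ τ ∈ Finset.univ.filter (· ∈ S), ((dW τ * orderOf τ : ℕ) : ℝ≥0∞) * uT m s τ P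
        ≤ ∑ τ ∈ Finset.univ.filter (· ∈ S),
            (if τ ∈ ({φ, φ⁻¹} : Finset (L ≃ₐ[K] L)) then
              ((dW τ * orderOf φ : ℕ) : ℝ≥0∞) * X else 0) := Finset.sum_le_sum hterm
      _ ≤ ∑ τ : L ≃ₐ[K] L, (if τ ∈ ({φ, φ⁻¹} : Finset (L ≃ₐ[K] L)) then
              ((dW τ * orderOf φ : ℕ) : ℝ≥0∞) * X else 0) :=
          Finset.sum_le_sum_of_subset (Finset.filter_subset _ _)
      _ = ∑ τ ∈ ({φ, φ⁻¹} : Finset (L ≃ₐ[K] L)), ((dW τ * orderOf φ : ℕ) : ℝ≥0∞) * X := by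
          rw [← Finset.sum_filter]
          congr 1
          ext τ
          simp
      _ = ((2 * orderOf φ : ℕ) : ℝ≥0∞) * X := by
          rw [← Finset.sum_mul, ← Nat.cast_sum, ← Finset.sum_mul, sum_dW]
      _ ≤ ((2 * P.asIdeal.inertiaDeg (𝓞 K) : ℕ) : ℝ≥0∞) * X := by
          gcongr
          have := P.isPrime
          exact Nat.le_of_dvd (P.asIdeal.inertiaDeg_pos (𝓞 K)) (orderOf_dvd_inertiaDeg P hunr hφ)
  · push Not at hex
    have h0 : ∑ τ ∈ Finset.univ.filter (· ∈ S),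
        ((dW τ * orderOf τ : ℕ) : ℝ≥0∞) * uT m s τ P = 0 := by
      refine Finset.sum_eq_zero fun τ hτ => ?_
      rw [uT, Set.indicator_of_notMem (hex τ (Finset.mem_filter.mp hτ).2), mul_zero]
    rw [h0]
    exact zero_le

open scoped Classical in
/-- **The double count**, in `ℝ≥0∞`. -/
theorem main_ennreal [Fintype (L ≃ₐ[K] L)] {S : Set (L ≃ₐ[K] L)}
    (hconj : ∀ g h, h ∈ S → g * h * g⁻¹ ∈ S) (hinv : ∀ h ∈ S, h⁻¹ ∈ S) (m : ℕ) {s : ℝ}
    (hs : 1 < s) :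
    ∑ τ ∈ Finset.univ.filter (· ∈ S), ((dW τ * orderOf τ : ℕ) : ℝ≥0∞) *
        ENNReal.ofReal (wsum (xP (fixF τ) s) (frobInSet (fixF τ) L m {gen τ, (gen τ)⁻¹})) ≤
      ((2 * Module.finrank K L : ℕ) : ℝ≥0∞) *
        ENNReal.ofReal (wsum (xP K s) (frobInSet K L m S)) := by
  have h1 : ∀ τ : L ≃ₐ[K] L,
      ENNReal.ofReal (wsum (xP (fixF τ) s) (frobInSet (fixF τ) L m {gen τ, (gen τ)⁻¹})) ≤
        ∑' P, uT m s τ P := by
    intro τ
    rw [ofReal_wsum (fixF τ) _ hs]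
    exact ENNReal.tsum_le_tsum_comp_of_surjective (below_surjective (fixF τ) L) _
  calc ∑ τ ∈ Finset.univ.filter (· ∈ S), ((dW τ * orderOf τ : ℕ) : ℝ≥0∞) *
        ENNReal.ofReal (wsum (xP (fixF τ) s) (frobInSet (fixF τ) L m {gen τ, (gen τ)⁻¹}))
      ≤ ∑ τ ∈ Finset.univ.filter (· ∈ S), ((dW τ * orderOf τ : ℕ) : ℝ≥0∞) * ∑' P, uT m s τ P :=
        Finset.sum_le_sum fun τ _ => by gcongr; exact h1 τ
    _ = ∑' P, ∑ τ ∈ Finset.univ.filter (· ∈ S), ((dW τ * orderOf τ : ℕ) : ℝ≥0∞) * uT m s τ P := by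
        simp_rw [← ENNReal.tsum_mul_left]
        rw [Summable.tsum_finsetSum (fun _ _ => ENNReal.summable)]
    _ ≤ ∑' P : HeightOneSpectrum (𝓞 L), ((2 * P.asIdeal.inertiaDeg (𝓞 K) : ℕ) : ℝ≥0∞) *
          (frobInSet K L m S).indicator (fun p => ENNReal.ofReal (xP K s p))
            (below (R := 𝓞 K) P) :=
        ENNReal.tsum_le_tsum (pointwise hconj hinv m s)
    _ = 2 * ∑' P : HeightOneSpectrum (𝓞 L), ((P.asIdeal.inertiaDeg (𝓞 K) : ℕ) : ℝ≥0∞) *
          (frobInSet K L m S).indicator (fun p => ENNReal.ofReal (xP K s p))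
            (below (R := 𝓞 K) P) := by
        rw [← ENNReal.tsum_mul_left]
        refine tsum_congr fun P => ?_
        push_cast
        ring
    _ ≤ 2 * ((Module.finrank K L : ℝ≥0∞) *
          ∑' p, (frobInSet K L m S).indicator (fun p => ENNReal.ofReal (xP K s p)) p) := by
        gcongr
        exact tsum_inertiaDeg_mul_le K L _
    _ = ((2 * Module.finrank K L : ℕ) : ℝ≥0∞) *
          ENNReal.ofReal (wsum (xP K s) (frobInSet K L m S)) := by
        rw [ofReal_wsum K _ hs]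
        push_cast
        ring

open scoped Classical in
/-- **The double count**, in `ℝ`. -/
theorem main_real [Fintype (L ≃ₐ[K] L)] {S : Set (L ≃ₐ[K] L)}
    (hconj : ∀ g h, h ∈ S → g * h * g⁻¹ ∈ S) (hinv : ∀ h ∈ S, h⁻¹ ∈ S) (m : ℕ) {s : ℝ}
    (hs : 1 < s) :
    ∑ τ ∈ Finset.univ.filter (· ∈ S), ((dW τ * orderOf τ : ℕ) : ℝ) *
        wsum (xP (fixF τ) s) (frobInSet (fixF τ) L m {gen τ, (gen τ)⁻¹}) ≤
      ((2 * Module.finrank K L : ℕ) : ℝ) * wsum (xP K s) (frobInSet K L m S) := by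
  have h := main_ennreal hconj hinv m hs
  have hR : 0 ≤ ((2 * Module.finrank K L : ℕ) : ℝ) * wsum (xP K s) (frobInSet K L m S) :=
    mul_nonneg (Nat.cast_nonneg _) (wsum_xP_nonneg K _ s)
  rw [← ENNReal.ofReal_le_ofReal_iff hR, ENNReal.ofReal_mul (Nat.cast_nonneg _),
    ENNReal.ofReal_natCast,
    ENNReal.ofReal_sum_of_nonneg (fun τ _ => mul_nonneg (Nat.cast_nonneg _)
      (wsum_xP_nonneg (fixF τ) _ s))]
  refine le_trans (le_of_eq ?_) h
  refine Finset.sum_congr rfl fun τ _ => ?_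
  rw [ENNReal.ofReal_mul (Nat.cast_nonneg _), ENNReal.ofReal_natCast]

end Fermat.Agent.DS.Cheb.DeuringCount68
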