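/-
(DS-e2) Chebotarev chapter, brick (K3)(a): the elementary supply of auxiliary primes.
For `n ≥ 1`, `D ≠ 0`, `ε > 0` there is a prime `q ∤ D`, `q ≡ 1 mod 2n`, such that at least
`(1 - ε)(q - 1)` elements `τ` of `(ZMod q)ˣ` have order divisible by `2n`.  Mathlib only.
-/
import Mathlib

set_option autoImplicit false

namespace Fermat.Agent.DS.Cheb.ManyOrders87

open Finset

section Group

variable {G : Type*} [Group G] [Fintype G]

/-- If `N₀ ^ k ∣ #G` (`k ≥ 1`) and `τ ^ (#G / r ^ k) ≠ 1` for every prime `r ∣ N₀`, then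
`N₀ ∣ orderOf τ`. -/
theorem dvd_orderOf_of_forall_pow_ne_one (N₀ k : ℕ) (hN₀ : 0 < N₀) (hk : 0 < k)
    (hdiv : N₀ ^ k ∣ Fintype.card G) (τ : G)
    (h : ∀ r ∈ N₀.primeFactors, τ ^ (Fintype.card G / r ^ k) ≠ 1) : N₀ ∣ orderOf τ := by
  set d := orderOf τ with hd
  set Nc := Fintype.card G with hNc
  have hNc0 : Nc ≠ 0 := Fintype.card_ne_zero
  have hdNc : d ∣ Nc := orderOf_dvd_card
  have hd0 : d ≠ 0 := (orderOf_pos τ).ne'
  rw [← Nat.factorization_le_iff_dvd hN₀.ne' hd0]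
  intro r
  by_cases hr : r ∈ N₀.primeFactors
  · have hrp : r.Prime := Nat.prime_of_mem_primeFactors hr
    have hrN : r ∣ N₀ := Nat.dvd_of_mem_primeFactors hr
    by_contra hlt
    push Not at hlt
    -- `v < e`
    set e := N₀.factorization r with he
    set v := d.factorization r with hv
    set f := Nc.factorization r with hf
    have hrk : r ^ k ∣ Nc := (pow_dvd_pow_of_dvd hrN k).trans hdiv
    have hfe : k * e ≤ f := by
      have h1 : (N₀ ^ k).factorization ≤ Nc.factorization :=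
        (Nat.factorization_le_iff_dvd (pow_pos hN₀ k).ne' hNc0).mpr hdiv
      have h2 := h1 r
      rw [Nat.factorization_pow] at h2
      simpa using h2
    -- `d ∣ Nc / r ^ k`
    have hquot0 : Nc / r ^ k ≠ 0 := by
      have := Nat.div_pos (Nat.le_of_dvd (Nat.pos_of_ne_zero hNc0) hrk) (pow_pos hrp.pos k)
      exact this.ne'
    have hdvd : d ∣ Nc / r ^ k := by
      rw [← Nat.factorization_le_iff_dvd hd0 hquot0, Nat.factorization_div hrk]
      intro r'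
      have hle : d.factorization r' ≤ Nc.factorization r' :=
        (Nat.factorization_le_iff_dvd hd0 hNc0).mpr hdNc r'
      rw [Finsupp.tsub_apply, hrp.factorization_pow]
      by_cases hrr : r' = r
      · subst hrr
        simp only [Finsupp.single_eq_same]
        -- `v ≤ e - 1 ≤ k (e - 1) ≤ f - k`
        have h1 : v + 1 ≤ e := hlt
        have h2 : (e - 1) ≤ k * (e - 1) := Nat.le_mul_of_pos_left _ hk
        have h3 : k * (e - 1) = k * e - k := by rw [Nat.mul_sub, mul_one]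
        change v ≤ f - k
        omega
      · rw [Finsupp.single_eq_of_ne hrr]
        simpa using hle
    exact h r hr (orderOf_dvd_iff_pow_eq_one.mp hdvd)
  · have : N₀.factorization r = 0 := by
      rw [← Finsupp.notMem_support_iff, Nat.support_factorization]
      exact hr
    rw [this]
    exact Nat.zero_le _

variable [IsCyclic G] [DecidableEq G]

/-- In a cyclic group `G` with `N₀ ^ k ∣ #G`, the number of `τ` with `N₀ ∤ orderOf τ` is at most
`∑_{r ∣ N₀ prime} #G / r ^ k`. -/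
theorem card_not_dvd_orderOf_le (N₀ k : ℕ) (hN₀ : 0 < N₀) (hk : 0 < k)
    (hdiv : N₀ ^ k ∣ Fintype.card G) :
    (univ.filter (fun τ : G => ¬ N₀ ∣ orderOf τ)).card ≤
      ∑ r ∈ N₀.primeFactors, Fintype.card G / r ^ k := by
  have hNc0 : 0 < Fintype.card G := Fintype.card_pos
  have hsub : (univ.filter (fun τ : G => ¬ N₀ ∣ orderOf τ)) ⊆
      N₀.primeFactors.biUnion
        (fun r => univ.filter (fun τ : G => τ ^ (Fintype.card G / r ^ k) = 1)) := by
    intro τ hτ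
    rw [mem_filter] at hτ
    by_contra hcon
    apply hτ.2
    apply dvd_orderOf_of_forall_pow_ne_one N₀ k hN₀ hk hdiv τ
    intro r hr h1
    apply hcon
    rw [mem_biUnion]
    exact ⟨r, hr, mem_filter.mpr ⟨mem_univ _, h1⟩⟩
  refine (card_le_card hsub).trans (card_biUnion_le.trans ?_)
  refine sum_le_sum fun r hr => ?_
  have hrp : r.Prime := Nat.prime_of_mem_primeFactors hr
  have hrN : r ∣ N₀ := Nat.dvd_of_mem_primeFactors hr
  have hrk : r ^ k ∣ Fintype.card G := (pow_dvd_pow_of_dvd hrN k).trans hdiv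
  have hpos : 0 < Fintype.card G / r ^ k :=
    Nat.div_pos (Nat.le_of_dvd hNc0 hrk) (pow_pos hrp.pos k)
  exact IsCyclic.card_pow_eq_one_le hpos

end Group

/-- **(K3)(a)** Supply of auxiliary primes: for `n ≥ 1`, `D ≠ 0`, `ε > 0` there is a prime
`q ∤ D` with `2n ∣ q - 1` such that at least `(1 - ε)(q - 1)` elements of `(ZMod q)ˣ` have order
divisible by `2n`. -/
theorem exists_prime_many_orders (n : ℕ) (hn : 0 < n) (D : ℕ) (hD : D ≠ 0) (ε : ℝ) (hε : 0 < ε) :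
    ∃ (q : ℕ) (_ : Fact q.Prime), ¬ q ∣ D ∧ 2 * n ∣ q - 1 ∧
      (1 - ε) * ((q : ℝ) - 1) ≤ (Nat.card {τ : (ZMod q)ˣ // 2 * n ∣ orderOf τ} : ℝ) := by
  classical
  set N₀ := 2 * n with hN₀def
  have hN₀ : 0 < N₀ := by positivity
  set c : ℕ := N₀.primeFactors.card with hc
  -- choose `k`
  obtain ⟨k₀, hk₀⟩ := exists_pow_lt_of_lt_one (show (0 : ℝ) < ε / (c + 1) by positivity)
    (show (1 / 2 : ℝ) < 1 by norm_num)
  set k := k₀ + 1 with hk
  have hkpos : 0 < k := Nat.succ_pos _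
  have hhalf : (c : ℝ) * (1 / 2 : ℝ) ^ k ≤ ε := by
    have h1 : (1 / 2 : ℝ) ^ k ≤ (1 / 2 : ℝ) ^ k₀ :=
      pow_le_pow_of_le_one (by norm_num) (by norm_num) (Nat.le_succ _)
    have h2 : (c : ℝ) * (1 / 2 : ℝ) ^ k ≤ (c : ℝ) * (ε / (c + 1)) :=
      mul_le_mul_of_nonneg_left (h1.trans hk₀.le) (Nat.cast_nonneg _)
    refine h2.trans ?_
    rw [mul_div_assoc', div_le_iff₀ (by positivity)]
    nlinarith
  -- choose `q`
  obtain ⟨q, hq, hDq, hmod⟩ := Nat.exists_prime_gt_modEq_one D (pow_ne_zero k hN₀.ne')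
  have : Fact q.Prime := ⟨hq⟩
  have hqD : ¬ q ∣ D := Nat.not_dvd_of_pos_of_lt (Nat.pos_of_ne_zero hD) hDq
  have hdiv : N₀ ^ k ∣ q - 1 := (Nat.modEq_iff_dvd' hq.one_lt.le).mp hmod.symm
  have hN₀q : N₀ ∣ q - 1 := (dvd_pow_self N₀ hkpos.ne').trans hdiv
  refine ⟨q, ⟨hq⟩, hqD, hN₀q, ?_⟩
  have hcard : Fintype.card (ZMod q)ˣ = q - 1 := ZMod.card_units q
  have hdiv' : N₀ ^ k ∣ Fintype.card (ZMod q)ˣ := by rw [hcard]; exact hdiv
  have hbad := card_not_dvd_orderOf_le (G := (ZMod q)ˣ) N₀ k hN₀ hkpos hdiv'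
  rw [hcard] at hbad
  -- good + bad = q - 1
  have hsplit : (univ.filter (fun τ : (ZMod q)ˣ => N₀ ∣ orderOf τ)).card +
      (univ.filter (fun τ : (ZMod q)ˣ => ¬ N₀ ∣ orderOf τ)).card = q - 1 := by
    rw [Finset.card_filter_add_card_filter_not, Finset.card_univ, hcard]
  have hgood : Nat.card {τ : (ZMod q)ˣ // N₀ ∣ orderOf τ} =
      (univ.filter (fun τ : (ZMod q)ˣ => N₀ ∣ orderOf τ)).card := by
    rw [Nat.card_eq_fintype_card, Fintype.card_subtype]
  rw [hgood]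
  -- real estimates
  have hq1 : ((q - 1 : ℕ) : ℝ) = (q : ℝ) - 1 := by
    rw [Nat.cast_sub hq.one_lt.le, Nat.cast_one]
  have hq1pos : (0 : ℝ) ≤ (q : ℝ) - 1 := by
    have : (1 : ℝ) ≤ q := by exact_mod_cast hq.one_lt.le
    linarith
  have hbadR : ((univ.filter (fun τ : (ZMod q)ˣ => ¬ N₀ ∣ orderOf τ)).card : ℝ) ≤
      (c : ℝ) * (((q : ℝ) - 1) * (1 / 2 : ℝ) ^ k) := by
    have h1 : ((univ.filter (fun τ : (ZMod q)ˣ => ¬ N₀ ∣ orderOf τ)).card : ℝ) ≤
        ((∑ r ∈ N₀.primeFactors, (q - 1) / r ^ k : ℕ) : ℝ) := by exact_mod_cast hbad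
    refine h1.trans ?_
    rw [Nat.cast_sum, hc, ← nsmul_eq_mul, ← Finset.sum_const]
    refine Finset.sum_le_sum fun r hr => ?_
    have hrp : r.Prime := Nat.prime_of_mem_primeFactors hr
    have h2 : (((q - 1) / r ^ k : ℕ) : ℝ) ≤ ((q - 1 : ℕ) : ℝ) / ((r ^ k : ℕ) : ℝ) :=
      Nat.cast_div_le
    refine h2.trans ?_
    rw [hq1, div_eq_mul_inv]
    refine mul_le_mul_of_nonneg_left ?_ hq1pos
    rw [Nat.cast_pow, one_div, inv_pow]
    have h2r : (2 : ℝ) ≤ r := by exact_mod_cast hrp.two_le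
    exact inv_anti₀ (by positivity) (pow_le_pow_left₀ (by norm_num) h2r k)
  have hsplitR : ((univ.filter (fun τ : (ZMod q)ˣ => N₀ ∣ orderOf τ)).card : ℝ) +
      ((univ.filter (fun τ : (ZMod q)ˣ => ¬ N₀ ∣ orderOf τ)).card : ℝ) = (q : ℝ) - 1 := by
    rw [← hq1]
    exact_mod_cast hsplit
  have hfin : (c : ℝ) * (((q : ℝ) - 1) * (1 / 2 : ℝ) ^ k) ≤ ε * ((q : ℝ) - 1) := by
    calc (c : ℝ) * (((q : ℝ) - 1) * (1 / 2 : ℝ) ^ k)
        = ((c : ℝ) * (1 / 2 : ℝ) ^ k) * ((q : ℝ) - 1) := by ring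
      _ ≤ ε * ((q : ℝ) - 1) := mul_le_mul_of_nonneg_right hhalf hq1pos
  linarith

end Fermat.Agent.DS.Cheb.ManyOrders87
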