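/-
(DS-e2) Chebotarev, brick (K5) = EXIT (helper94): `GaloisLower → QbarLower`.

Transport of the number-field lower bound (primes `𝔭` of `𝓞 ℚ`, `frobOf`) to the `ℚ̄` form: finite
sets of rational primes `p`, every Frobenius element `φ` at every valuation subring `A` of `ℚ̄` over
`p` restricting into `S`.
-/
import Mathlib
import Fermat.Agent.DS.Cheb.Spec11
import Fermat.Agent.ES.GAL.ChebQbar23

set_option autoImplicit false
set_option linter.unusedSectionVars false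

open IsDedekindDomain Ideal NumberField
open scoped Pointwise
open Fermat.Agent.CFT.SplitPrimes Fermat.Agent.CFT.NotAllSplit Fermat.Agent.CFT.ArtinSymbol
open Fermat.Agent.ES.GAL.ChebAbstract23 Fermat.Agent.Lib.FrobeniusExists
open Fermat.Agent.PT.GLOB.FrobGenerate19 Fermat.Agent.ES.GAL.ChebDensity23
open Fermat.Agent.ES.GAL.ChebQbar23 Fermat.Agent.DS.Cheb.Spec11

namespace Fermat.Agent.DS.Cheb.QbarLower94

/-! ### Step A: `frobOf ∈ S` means every Frobenius at every prime above is in `S` -/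

section StepA

variable {K L : Type} [Field K] [Field L] [NumberField K] [NumberField L] [Algebra K L]
  [IsGalois K L]

/-- For a conjugation-stable `S` and `𝔭 ∈ frobInSet K L m S`, every arithmetic Frobenius at every
prime of `L` above `𝔭` lies in `S`. -/
theorem mem_of_isArithFrobAt {S : Set (L ≃ₐ[K] L)} (hconj : ∀ g h, h ∈ S → g * h * g⁻¹ ∈ S)
    {m : ℕ} {p : HeightOneSpectrum (𝓞 K)} (hp : p ∈ frobInSet K L m S)
    {P : Ideal (𝓞 L)} [hPprime : P.IsPrime] (hP : P.under (𝓞 K) = p.asIdeal)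
    {σ : L ≃ₐ[K] L} (hσ : IsArithFrobAt (𝓞 K) σ P) : σ ∈ S := by
  obtain ⟨⟨hprime, hndvd⟩, hS⟩ := hp
  obtain ⟨P₀, hP₀, -, hP₀q, hfrob⟩ := frobOf_spec (L := L) p.isPrime p.ne_bot
  obtain ⟨τ, hτ⟩ := Algebra.IsInvariant.exists_smul_of_under_eq (𝓞 K) (𝓞 L) (L ≃ₐ[K] L) P₀ P
    (by rw [hP₀q, hP])
  have h := hfrob.conj τ
  rw [← hτ] at h
  have hℓP : ((absNorm p.asIdeal : ℕ) : 𝓞 L) ∈ P := by
    have := natCast_absNorm_under_mem (K := K) P
    rwa [hP] at this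
  have hin : P.inertia (L ≃ₐ[K] L) = ⊥ :=
    inertia_eq_bot_of_not_dvd_discr P hprime hℓP (not_dvd_discr_of_not_dvd_mul hndvd)
  have : σ = τ * frobOf K L p.asIdeal * τ⁻¹ := isArithFrobAt_unique hin hσ h
  rw [this]
  exact hconj _ _ hS

end StepA

/-! ### Primes of `𝓞 ℚ` -/

section Rat

theorem finrank_int_ringOfIntegers_rat : Module.finrank ℤ (𝓞 ℚ) = 1 := by
  rw [RingOfIntegers.rank, Module.finrank_self]

/-- The ideal of `𝓞 ℚ` generated by a prime number is maximal. -/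
theorem isMaximal_span_natCast {p : ℕ} (hp : p.Prime) :
    (Ideal.span {((p : ℕ) : 𝓞 ℚ)}).IsMaximal := by
  have hn : absNorm (Ideal.span {((p : ℕ) : 𝓞 ℚ)}) = p := by
    rw [Ideal.absNorm_span_natCast, finrank_int_ringOfIntegers_rat, pow_one]
  have hprime : (Ideal.span {((p : ℕ) : 𝓞 ℚ)}).IsPrime :=
    Ideal.isPrime_of_irreducible_absNorm (by rw [hn]; exact hp.prime.irreducible)
  have hne : Ideal.span {((p : ℕ) : 𝓞 ℚ)} ≠ ⊥ := by
    intro h
    rw [h, Ideal.absNorm_bot] at hn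
    exact hp.ne_zero hn.symm
  exact Ideal.IsPrime.isMaximal hprime hne

/-- A proper ideal of `𝓞 ℚ` containing a prime number `p` is `(p)`. -/
theorem eq_span_of_mem {p : ℕ} (hp : p.Prime) {I : Ideal (𝓞 ℚ)} (hI : I ≠ ⊤)
    (hmem : ((p : ℕ) : 𝓞 ℚ) ∈ I) : I = Ideal.span {((p : ℕ) : 𝓞 ℚ)} := by
  have hle : Ideal.span {((p : ℕ) : 𝓞 ℚ)} ≤ I := (Ideal.span_singleton_le_iff_mem I).mpr hmem
  exact ((isMaximal_span_natCast hp).eq_of_le hI hle).symm

theorem asIdeal_eq_span (𝔭 : HeightOneSpectrum (𝓞 ℚ)) :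
    𝔭.asIdeal = Ideal.span {((absNorm 𝔭.asIdeal : ℕ) : 𝓞 ℚ)} :=
  eq_span_of_mem (absNorm_prime_of_rat 𝔭) 𝔭.isPrime.ne_top (Ideal.absNorm_mem _)

/-- A prime of `𝓞 ℚ` is determined by its norm. -/
theorem absNorm_injective :
    Function.Injective fun 𝔭 : HeightOneSpectrum (𝓞 ℚ) => absNorm 𝔭.asIdeal := by
  intro 𝔭 𝔮 h
  apply HeightOneSpectrum.ext
  rw [asIdeal_eq_span 𝔭, asIdeal_eq_span 𝔮]
  simp only at h
  rw [h]

end Rat

/-! ### Step B: Frobenius elements at valuation subrings of `ℚ̄` -/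

section StepB

attribute [local instance] isGalois_Qbar isIntegral_Qbar

variable (L : IntermediateField ℚ Qbar) [NumberField L] [IsGalois ℚ L]

/-- The centre on `𝓞 L` of a valuation subring of `ℚ̄`. -/
noncomputable def centre (A : ValuationSubring Qbar) : Ideal (𝓞 L) :=
  (IsLocalRing.maximalIdeal A).comap ((incl L).codRestrict A (incl_mem L A))

theorem mem_centre (A : ValuationSubring Qbar) (x : 𝓞 L) :
    incl L x ∈ A.nonunits ↔ x ∈ centre L A := by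
  rw [centre, Ideal.mem_comap, ← ValuationSubring.coe_mem_nonunits_iff]
  rfl

instance centre_isPrime (A : ValuationSubring Qbar) : (centre L A).IsPrime :=
  Ideal.comap_isPrime _ _

/-- Every Frobenius element at every valuation subring over `p = N𝔭`, `𝔭 ∈ frobInSet ℚ L m S`,
restricts into `S`. -/
theorem restrict_mem_of_frobenius {S : Set (L ≃ₐ[ℚ] L)} (hconj : ∀ g h, h ∈ S → g * h * g⁻¹ ∈ S)
    {m : ℕ} {𝔭 : HeightOneSpectrum (𝓞 ℚ)} (h𝔭 : 𝔭 ∈ frobInSet ℚ L m S)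
    {A : ValuationSubring Qbar} (hA : A.LiesOverPrime (absNorm 𝔭.asIdeal)) {φ : GQ}
    (hφ : A.IsFrobeniusAt φ (absNorm 𝔭.asIdeal)) :
    AlgEquiv.restrictNormalHom L φ ∈ S := by
  set p := absNorm 𝔭.asIdeal with hp
  have hpprime : p.Prime := h𝔭.1.1
  set P := centre L A with hP
  -- `p ∈ P`
  have hpP : ((p : ℕ) : 𝓞 L) ∈ P := by
    rw [hP, ← mem_centre]
    have h2 : incl L ((p : ℕ) : 𝓞 L) = (p : Qbar) := map_natCast _ _
    rw [h2]
    exact hA
  -- the prime below `P` is `𝔭`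
  have hunder : P.under (𝓞 ℚ) = 𝔭.asIdeal := by
    have h1 : ((p : ℕ) : 𝓞 ℚ) ∈ P.under (𝓞 ℚ) := by
      rw [Ideal.under_def, Ideal.mem_comap, map_natCast]
      exact hpP
    have hne : P.under (𝓞 ℚ) ≠ ⊤ := (Ideal.IsPrime.under (𝓞 ℚ) P).ne_top
    rw [eq_span_of_mem hpprime hne h1, asIdeal_eq_span 𝔭]
  have hnorm : absNorm (P.under (𝓞 ℚ)) = p := by rw [hunder]
  have hfrob : IsArithFrobAt (𝓞 ℚ) (AlgEquiv.restrictNormalHom L φ) P :=
    isArithFrobAt_restrict L (fun x => mem_centre L A x) hnorm hφ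
  exact mem_of_isArithFrobAt hconj h𝔭 hunder hfrob

end StepB

/-! ### The exit -/

section Main

/-- **(K5)**: `GaloisLower → QbarLower`. -/
theorem qbarLower_of_galoisLower (h : GaloisLower) : QbarLower := by
  intro L _ _ S hconj hinv m hm ε hε
  classical
  have hNF : NumberField L := ⟨⟩
  set n : ℕ := Nat.card (L ≃ₐ[ℚ] L) with hn
  have hnpos : 0 < n := Nat.card_pos
  have hnR : (0 : ℝ) < n := by exact_mod_cast hnpos
  obtain ⟨B', hB'⟩ := h ℚ L S hconj hinv m hm (ε * n) (mul_pos hε hnR)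
  refine ⟨B' / n + 1, fun s hs => ?_⟩
  set T := frobInSet ℚ L m S with hT
  set f : HeightOneSpectrum (𝓞 ℚ) → ℝ := T.indicator (xP ℚ s) with hf
  -- a finite partial sum within `1` of the whole sum
  obtain ⟨F, hF⟩ : ∃ F : Finset (HeightOneSpectrum (𝓞 ℚ)),
      wsum (xP ℚ s) T - 1 ≤ ∑ 𝔭 ∈ F, f 𝔭 := by
    by_cases hsum : Summable f
    · have hlt : wsum (xP ℚ s) T - 1 < ∑' 𝔭, f 𝔭 := by
        rw [wsum]; linarith
      obtain ⟨F, hF⟩ := (hsum.hasSum.eventually (lt_mem_nhds hlt)).exists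
      exact ⟨F, hF.le⟩
    · refine ⟨∅, ?_⟩
      rw [wsum, tsum_eq_zero_of_not_summable hsum]
      simp
  set F' := F.filter (· ∈ T) with hF'
  have hFsum : ∑ 𝔭 ∈ F, f 𝔭 = ∑ 𝔭 ∈ F', xP ℚ s 𝔭 := by
    rw [hf, hF', Finset.sum_filter]
    refine Finset.sum_congr rfl fun 𝔭 _ => ?_
    by_cases h𝔭 : 𝔭 ∈ T
    · rw [Set.indicator_of_mem h𝔭, if_pos h𝔭]
    · rw [Set.indicator_of_notMem h𝔭, if_neg h𝔭]
  refine ⟨F'.image (fun 𝔭 => absNorm 𝔭.asIdeal), ?_, ?_⟩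
  · intro p hp
    obtain ⟨𝔭, h𝔭, rfl⟩ := Finset.mem_image.mp hp
    have h𝔭T : 𝔭 ∈ T := (Finset.mem_filter.mp h𝔭).2
    refine ⟨h𝔭T.1.1, fun hdvd => h𝔭T.1.2 (hdvd.mul_right _), fun A hA φ hφ => ?_⟩
    exact restrict_mem_of_frobenius L hconj h𝔭T hA hφ
  · rw [Finset.sum_image (fun a _ b _ hab => absNorm_injective hab)]
    have h1 := hB' s hs
    have h2 : ((Nat.card S : ℝ) / n - ε) * Real.log (1 / (s - 1)) - B' / n
        = (((Nat.card S : ℝ) - ε * n) * Real.log (1 / (s - 1)) - B') / n := by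
      field_simp
    have h3 : (((Nat.card S : ℝ) - ε * n) * Real.log (1 / (s - 1)) - B') / n
        ≤ wsum (xP ℚ s) T := by
      rw [div_le_iff₀ hnR]
      calc _ ≤ (n : ℝ) * wsum (xP ℚ s) T := h1
        _ = wsum (xP ℚ s) T * n := mul_comm _ _
    have h4 : ∑ 𝔭 ∈ F', xP ℚ s 𝔭 = ∑ 𝔭 ∈ F', ((absNorm 𝔭.asIdeal : ℕ) : ℝ) ^ (-s) := rfl
    rw [← h4, ← hFsum]
    linarith

end Main

end Fermat.Agent.DS.Cheb.QbarLower94
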